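/-
Team S54 (owner of this file: helper68).
The Frobenius automorphism `x ↦ x ^ ℓ` of `B ⧸ Q`, for `B` the ring of algebraic integers in
`AlgebraicClosure ℚ` and `Q` a prime of `B` containing `ℓ`.
-/
import Fermat.Statements.S54

set_option autoImplicit false

namespace Fermat.Agent.S54

/-- Every algebraic integer has an `n`-th root which is an algebraic integer. -/
theorem exists_pow_eq_integralClosure (n : ℕ) (hn : 0 < n)
    (b : integralClosure ℤ (AlgebraicClosure ℚ)) :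
    ∃ c : integralClosure ℤ (AlgebraicClosure ℚ), c ^ n = b := by
  obtain ⟨c, hc⟩ := IsAlgClosed.exists_pow_nat_eq (b : AlgebraicClosure ℚ) hn
  have hint : IsIntegral ℤ c := by
    apply IsIntegral.of_pow hn
    rw [hc]
    exact b.2
  exact ⟨⟨c, hint⟩, Subtype.ext hc⟩

theorem exists_frobAlgEquiv (ℓ : ℕ) (hℓ : ℓ.Prime)
    (Q : Ideal (integralClosure ℤ (AlgebraicClosure ℚ))) [Q.IsPrime]
    (hQ : (ℓ : integralClosure ℤ (AlgebraicClosure ℚ)) ∈ Q) :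
    ∃ τ : ((integralClosure ℤ (AlgebraicClosure ℚ)) ⧸ Q) ≃ₐ[ℤ ⧸ Q.under ℤ]
        ((integralClosure ℤ (AlgebraicClosure ℚ)) ⧸ Q), ∀ x, τ x = x ^ ℓ := by
  have : Fact ℓ.Prime := ⟨hℓ⟩
  have h0 : ((ℓ : ℕ) : (integralClosure ℤ (AlgebraicClosure ℚ)) ⧸ Q) = 0 := by
    rw [← map_natCast (Ideal.Quotient.mk Q)]
    exact Ideal.Quotient.eq_zero_iff_mem.mpr hQ
  have : CharP ((integralClosure ℤ (AlgebraicClosure ℚ)) ⧸ Q) ℓ :=
    (CharP.charP_iff_prime_eq_zero hℓ).mpr h0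
  have hinj : Function.Injective (frobenius ((integralClosure ℤ (AlgebraicClosure ℚ)) ⧸ Q) ℓ) :=
    frobenius_inj _ ℓ
  have hsurj : Function.Surjective
      (frobenius ((integralClosure ℤ (AlgebraicClosure ℚ)) ⧸ Q) ℓ) := by
    intro x
    obtain ⟨b, rfl⟩ := Ideal.Quotient.mk_surjective x
    obtain ⟨c, hc⟩ := exists_pow_eq_integralClosure ℓ hℓ.pos b
    refine ⟨Ideal.Quotient.mk Q c, ?_⟩
    rw [frobenius_def, ← map_pow, hc]
  refine ⟨{ RingEquiv.ofBijective _ ⟨hinj, hsurj⟩ with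
    commutes' := ?_ }, fun x => rfl⟩
  intro r
  obtain ⟨n, rfl⟩ := Ideal.Quotient.mk_surjective r
  change frobenius _ ℓ (algebraMap (ℤ ⧸ Q.under ℤ) _ (Ideal.Quotient.mk _ n)) =
    algebraMap (ℤ ⧸ Q.under ℤ) _ (Ideal.Quotient.mk _ n)
  have : algebraMap (ℤ ⧸ Q.under ℤ) ((integralClosure ℤ (AlgebraicClosure ℚ)) ⧸ Q)
      (Ideal.Quotient.mk _ n) = ((n : ℤ) : (integralClosure ℤ (AlgebraicClosure ℚ)) ⧸ Q) := by
    have e : Ideal.Quotient.mk (Q.under ℤ) n = ((n : ℤ) : ℤ ⧸ Q.under ℤ) := by simp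
    rw [e, map_intCast]
  rw [this, map_intCast]

end Fermat.Agent.S54
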