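import Mathlib
import Fermat.Agent.S54.FrobQuot

/-!
Hedge version (helper54) of the profinite block: a Frobenius lift on the ring of algebraic
integers, via `Ideal.Quotient.stabilizerHom_surjective_of_profinite`.
-/

set_option autoImplicit false

namespace Fermat.Agent.S54

namespace FrobIntB

open scoped Pointwise

theorem ratAlgEq : (DivisionRing.toRatAlgebra : Algebra ℚ (AlgebraicClosure ℚ)) =
    AlgebraicClosure.instAlgebra ℚ := rfl

theorem isAlgClosure_rat : IsAlgClosure ℚ (AlgebraicClosure ℚ) := by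
  rw [ratAlgEq]; infer_instance

attribute [local instance] isAlgClosure_rat

local notation "Zb" => integralClosure ℤ (AlgebraicClosure ℚ)
local notation "GQ" => (AlgebraicClosure ℚ ≃ₐ[ℚ] AlgebraicClosure ℚ)

/-- The Galois action on the ring of algebraic integers. -/
@[instance_reducible]
noncomputable def galAction : MulSemiringAction GQ Zb where
  smul σ b := ⟨σ b, b.2.map σ⟩
  one_smul _ := Subtype.ext rfl
  mul_smul _ _ _ := Subtype.ext rfl
  smul_zero σ := Subtype.ext (map_zero σ)
  smul_add σ _ _ := Subtype.ext (map_add σ _ _)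
  smul_one σ := Subtype.ext (map_one σ)
  smul_mul σ _ _ := Subtype.ext (map_mul σ _ _)

attribute [local instance] galAction

theorem coe_galAction_smul (σ : GQ) (b : Zb) : ((σ • b : Zb) : AlgebraicClosure ℚ) = σ b := rfl

theorem smulCommClass_gal : SMulCommClass GQ ℤ Zb where
  smul_comm σ n b := by
    apply Subtype.ext
    rw [coe_galAction_smul]
    show σ ((n • b : Zb) : AlgebraicClosure ℚ) = ((n • (σ • b) : Zb) : AlgebraicClosure ℚ)
    rw [Subalgebra.coe_smul, Subalgebra.coe_smul, coe_galAction_smul, map_zsmul]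

attribute [local instance] smulCommClass_gal

theorem isInvariant_gal : Algebra.IsInvariant ℤ Zb GQ where
  isInvariant b hb := by
    have hfix : ∀ σ : GQ, σ (b : AlgebraicClosure ℚ) = b := fun σ =>
      congrArg Subtype.val (hb σ)
    obtain ⟨r, hr⟩ := (InfiniteGalois.mem_range_algebraMap_iff_fixed (b : AlgebraicClosure ℚ)).mpr
      hfix
    have hint : IsIntegral ℤ r := by
      have h1 : IsIntegral ℤ (algebraMap ℚ (AlgebraicClosure ℚ) r) := by rw [hr]; exact b.2
      exact (isIntegral_algebraMap_iff (algebraMap ℚ (AlgebraicClosure ℚ)).injective).mp h1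
    obtain ⟨n, hn⟩ := IsIntegrallyClosed.isIntegral_iff.mp hint
    refine ⟨n, Subtype.ext ?_⟩
    rw [← hr, ← hn]
    simp

attribute [local instance] isInvariant_gal

theorem exists_frob_on_integers (ℓ : ℕ) (hℓ : ℓ.Prime)
    (Q : Ideal (integralClosure ℤ (AlgebraicClosure ℚ))) [Q.IsPrime]
    (hQ : (ℓ : integralClosure ℤ (AlgebraicClosure ℚ)) ∈ Q) :
    ∃ σ : AlgebraicClosure ℚ ≃ₐ[ℚ] AlgebraicClosure ℚ,
      ∀ (b c : integralClosure ℤ (AlgebraicClosure ℚ)), (c : AlgebraicClosure ℚ) = σ b →
        c - b ^ ℓ ∈ Q := by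
  obtain ⟨τ, hτ⟩ := exists_frobAlgEquiv ℓ hℓ Q hQ
  let _ : TopologicalSpace Zb := ⊥
  have : DiscreteTopology Zb := ⟨rfl⟩
  have : ContinuousSMul GQ Zb := by
    rw [continuousSMul_iff_stabilizer_isOpen]
    intro b
    have h := stabilizer_isOpen_of_isIntegral (K := ℚ) (b : AlgebraicClosure ℚ)
    have heq : (MulAction.stabilizer GQ b : Set GQ) =
        (MulAction.stabilizer GQ (b : AlgebraicClosure ℚ) : Set GQ) := by
      ext σ
      simp only [SetLike.mem_coe, MulAction.mem_stabilizer_iff]
      constructor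
      · intro hσ
        exact congrArg Subtype.val hσ
      · intro hσ
        exact Subtype.ext hσ
    rw [heq]
    exact h
  obtain ⟨⟨σ, hσ⟩, hστ⟩ :=
    Ideal.Quotient.stabilizerHom_surjective_of_profinite (G := GQ) (Q.under ℤ) Q τ
  refine ⟨σ, fun b c hbc => ?_⟩
  have h1 : Ideal.Quotient.mk Q (σ • b) = Ideal.Quotient.mk Q (b ^ ℓ) := by
    have := DFunLike.congr_fun hστ (Ideal.Quotient.mk Q b)
    rw [hτ, ← map_pow] at this
    exact this
  have hc : c = σ • b := Subtype.ext hbc
  rw [hc]
  exact Ideal.Quotient.eq.mp h1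

end FrobIntB

end Fermat.Agent.S54
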