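import Mathlib

/-!
# A valuation subring attached to a prime of the ring of algebraic integers

For a principal ideal domain `R` (e.g. `ℤ`), a field `K` algebraic over `R` (e.g. an algebraic
closure of `ℚ`) and a prime ideal `Q` of `B = integralClosure R K`, the set
`{x | ∃ a s ∈ B, s ∉ Q ∧ s * x = a}` (the localisation of `B` at `Q`) is a valuation subring
of `K`.  The algebra structure `Algebra R K` is a variable, so that the results apply to whatever
instance `Algebra ℤ (AlgebraicClosure ℚ)` is in use.
-/

set_option autoImplicit false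

namespace Fermat.Agent.S54

open Polynomial

section ValSub

variable {R K : Type*} [CommRing R] [Field K] [Algebra R K]

/-- Key induction: a root `x` of a polynomial over `B = integralClosure R K` having some
coefficient outside the prime `Q` satisfies `x ∈ B_Q` or `x⁻¹ ∈ B_Q`. -/
theorem mem_or_inv_mem_aux (Q : Ideal (integralClosure R K)) [Q.IsPrime] (x : K) :
    ∀ (m : ℕ) (f : (integralClosure R K)[X]), f.natDegree = m → aeval x f = 0 →
      (∃ n, f.coeff n ∉ Q) →
      (∃ a s : integralClosure R K, s ∉ Q ∧ (s : K) * x = a) ∨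
        (∃ a s : integralClosure R K, s ∉ Q ∧ (s : K) * x⁻¹ = a) := by
  intro m
  induction m using Nat.strong_induction_on with
  | _ m IH =>
  intro f hfm hf hn
  obtain ⟨n, hn⟩ := hn
  rcases Nat.eq_zero_or_pos m with hm0 | hmpos
  · -- degree zero: impossible
    exfalso
    rw [hm0] at hfm
    obtain ⟨c, rfl⟩ := natDegree_eq_zero.mp hfm
    rw [aeval_C] at hf
    have hc : c = 0 := by
      apply Subtype.ext
      simpa using hf
    apply hn
    rw [hc, map_zero, coeff_zero]
    exact Q.zero_mem
  · -- positive degree
    have hint : IsIntegral R (f.leadingCoeff • x) :=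
      isIntegral_trans _ (isIntegral_leadingCoeff_smul f x hf)
    set a : integralClosure R K := ⟨f.leadingCoeff • x, hint⟩ with ha
    have hax : (a : K) = (f.leadingCoeff : K) * x := by
      rw [ha]; exact Subalgebra.smul_def _ _
    by_cases hc : f.leadingCoeff ∈ Q
    · by_cases haQ : a ∈ Q
      · -- lower the degree
        have hm1 : m - 1 + 1 = m := Nat.sub_add_cancel hmpos
        set g : (integralClosure R K)[X] := f.eraseLead + C a * X ^ (m - 1) with hg
        have hgdeg : g.natDegree ≤ m - 1 := by
          refine (natDegree_add_le _ _).trans (max_le ?_ ?_)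
          · exact hfm ▸ eraseLead_natDegree_le f
          · exact natDegree_C_mul_X_pow_le a (m - 1)
        have hgx : aeval x g = 0 := by
          have h1 : aeval x f.eraseLead = aeval x f - aeval x (monomial f.natDegree f.leadingCoeff) := by
            rw [← map_sub, self_sub_monomial_natDegree_leadingCoeff]
          rw [hg, map_add, h1, hf, zero_sub, aeval_monomial, map_mul, aeval_C, map_pow, aeval_X,
            hfm]
          have h2 : algebraMap (integralClosure R K) K a = (a : K) := rfl
          have h3 : algebraMap (integralClosure R K) K f.leadingCoeff = (f.leadingCoeff : K) := rfl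
          rw [h2, h3, hax]
          nth_rewrite 1 [← hm1]
          ring
        have hgn : g.coeff n ∉ Q := by
          have hnm : n ≠ f.natDegree := by
            rintro rfl
            exact hn hc
          rw [hg, coeff_add, eraseLead_coeff, if_neg hnm, coeff_C_mul, coeff_X_pow]
          intro h
          apply hn
          refine (Ideal.add_mem_iff_left Q ?_).mp h
          exact Ideal.mul_mem_right _ _ haQ
        exact IH g.natDegree (by omega) g rfl hgx ⟨n, hgn⟩
      · -- `x⁻¹ = c / a`
        right
        refine ⟨f.leadingCoeff, a, haQ, ?_⟩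
        have hx0 : x ≠ 0 := by
          rintro rfl
          apply haQ
          have : a = 0 := Subtype.ext (by rw [hax]; simp)
          rw [this]; exact Q.zero_mem
        rw [hax, mul_assoc, mul_inv_cancel₀ hx0, mul_one]
    · left
      exact ⟨a, f.leadingCoeff, hc, hax.symm⟩

variable [IsDomain R] [IsPrincipalIdealRing R] [NormalizedGCDMonoid R] [Module.IsTorsionFree R K]
  [Algebra.IsAlgebraic R K]

omit [IsDomain R] in
/-- The localisation of `integralClosure R K` at a prime is a valuation ring of `K`. -/
theorem mem_or_inv_mem_of_isPrime (Q : Ideal (integralClosure R K)) [hQ : Q.IsPrime] (x : K) :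
    (∃ a s : integralClosure R K, s ∉ Q ∧ (s : K) * x = a) ∨
      (∃ a s : integralClosure R K, s ∉ Q ∧ (s : K) * x⁻¹ = a) := by
  obtain ⟨p, hp0, hpx⟩ := Algebra.IsAlgebraic.isAlgebraic (R := R) x
  have hprim : p.primPart.IsPrimitive := p.isPrimitive_primPart
  have hpx' : aeval x p.primPart = 0 := aeval_primPart_eq_zero hp0 hpx
  set f : (integralClosure R K)[X] := p.primPart.map (algebraMap R (integralClosure R K)) with hf
  have hfx : aeval x f = 0 := by
    rw [hf, aeval_map_algebraMap]; exact hpx'
  refine mem_or_inv_mem_aux Q x f.natDegree f rfl hfx ?_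
  by_contra hall
  push Not at hall
  -- all coefficients lie in the prime `P = Q ∩ R`, which is principal
  set P : Ideal R := Q.comap (algebraMap R (integralClosure R K)) with hP
  have hPprime : P.IsPrime := Ideal.comap_isPrime _ _
  have hcoeff : ∀ n, p.primPart.coeff n ∈ P := by
    intro n
    have := hall n
    rw [hf, coeff_map] at this
    exact this
  have hprinc : P = Ideal.span {Submodule.IsPrincipal.generator P} :=
    (Ideal.span_singleton_generator P).symm
  have hdvd : C (Submodule.IsPrincipal.generator P) ∣ p.primPart := by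
    rw [C_dvd_iff_dvd_coeff]
    intro n
    have := hcoeff n
    rw [hprinc, Ideal.mem_span_singleton] at this
    exact this
  have hunit : IsUnit (Submodule.IsPrincipal.generator P) := hprim _ hdvd
  apply hPprime.ne_top
  rw [hprinc]
  exact Ideal.span_singleton_eq_top.mpr hunit

/-- The valuation subring of `K` attached to a prime `Q` of the ring of algebraic integers:
the localisation of `integralClosure R K` at `Q`. -/
def valSub (Q : Ideal (integralClosure R K)) [hQ : Q.IsPrime] : ValuationSubring K where
  carrier := {x | ∃ a s : integralClosure R K, s ∉ Q ∧ (s : K) * x = a}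
  mul_mem' := by
    rintro x y ⟨a, s, hs, h⟩ ⟨a', s', hs', h'⟩
    refine ⟨a * a', s * s', fun hmem => (hQ.mem_or_mem hmem).elim hs hs', ?_⟩
    push_cast
    rw [← h, ← h']; ring
  one_mem' := ⟨1, 1, (Ideal.ne_top_iff_one Q).mp hQ.ne_top, by simp⟩
  add_mem' := by
    rintro x y ⟨a, s, hs, h⟩ ⟨a', s', hs', h'⟩
    refine ⟨a * s' + a' * s, s * s', fun hmem => (hQ.mem_or_mem hmem).elim hs hs', ?_⟩
    push_cast
    rw [← h, ← h']; ring
  zero_mem' := ⟨0, 1, (Ideal.ne_top_iff_one Q).mp hQ.ne_top, by simp⟩
  neg_mem' := by
    rintro x ⟨a, s, hs, h⟩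
    exact ⟨-a, s, hs, by push_cast; rw [← h]; ring⟩
  mem_or_inv_mem' := fun x => mem_or_inv_mem_of_isPrime Q x

theorem mem_valSub_iff (Q : Ideal (integralClosure R K)) [hQ : Q.IsPrime] (x : K) :
    x ∈ valSub Q ↔ ∃ a s : integralClosure R K, s ∉ Q ∧ (s : K) * x = a :=
  Iff.rfl

theorem coe_mem_valSub (Q : Ideal (integralClosure R K)) [hQ : Q.IsPrime]
    (b : integralClosure R K) : (b : K) ∈ valSub Q :=
  ⟨b, 1, (Ideal.ne_top_iff_one Q).mp hQ.ne_top, by simp⟩

/-- Elements `a / s` with `a ∈ Q`, `s ∉ Q` are non-units of the valuation subring. -/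
theorem mem_nonunits_valSub (Q : Ideal (integralClosure R K)) [hQ : Q.IsPrime] {x : K}
    (a s : integralClosure R K) (ha : a ∈ Q) (hs : s ∉ Q) (h : (s : K) * x = a) :
    x ∈ (valSub Q).nonunits := by
  rw [ValuationSubring.mem_nonunits_iff_exists_mem_maximalIdeal]
  refine ⟨⟨a, s, hs, h⟩, ?_⟩
  rw [IsLocalRing.mem_maximalIdeal, mem_nonunits_iff]
  intro hu
  obtain ⟨⟨y, hy⟩, hxy⟩ := isUnit_iff_exists_inv.mp hu
  obtain ⟨a', s', hs', h'⟩ := hy
  have hxy' : x * y = 1 := congrArg Subtype.val hxy
  have hprod : s * s' = a * a' := by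
    apply Subtype.ext
    push_cast
    rw [← h, ← h']
    calc (s : K) * s' = (s : K) * s' * (x * y) := by rw [hxy', mul_one]
      _ = (s : K) * x * ((s' : K) * y) := by ring
  have hmem : s * s' ∈ Q := by
    rw [hprod]; exact Ideal.mul_mem_right _ _ ha
  exact (hQ.mem_or_mem hmem).elim hs hs'

end ValSub

end Fermat.Agent.S54
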