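import Mathlib
import Fermat.Prelude.Def_EllipticCurve_FrobeniusTrace
import Fermat.Agent.S54.ValSub
import Fermat.Agent.S54.FrobIntB

/-!
# Existence of Frobenius elements in the absolute Galois group of `ℚ`

For every prime `ℓ` there are a valuation subring `A` of `AlgebraicClosure ℚ` lying over `ℓ`
and `σ ∈ Gal(ℚ̄/ℚ)` which is a Frobenius element at `A`.
-/

set_option autoImplicit false

namespace Fermat.Agent.S54

open scoped Pointwise

theorem isAlgebraic_int_algebraicClosure_rat : Algebra.IsAlgebraic ℤ (AlgebraicClosure ℚ) := by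
  refine ⟨fun x => ?_⟩
  rw [IsFractionRing.isAlgebraic_iff ℤ ℚ (AlgebraicClosure ℚ)]
  have h : @Algebra.IsAlgebraic ℚ (AlgebraicClosure ℚ) _ _ (AlgebraicClosure.instAlgebra ℚ) :=
    inferInstance
  exact h.isAlgebraic x

attribute [local instance] isAlgebraic_int_algebraicClosure_rat

/-- Existence of Frobenius elements at every prime, for `Gal(ℚ̄/ℚ)`. -/
theorem exists_isFrobeniusAt (ℓ : ℕ) (hℓ : ℓ.Prime) :
    ∃ (A : ValuationSubring (AlgebraicClosure ℚ))
      (σ : AlgebraicClosure ℚ ≃ₐ[ℚ] AlgebraicClosure ℚ),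
      A.LiesOverPrime ℓ ∧ A.IsFrobeniusAt σ ℓ := by
  classical
  -- a prime of the ring of algebraic integers above `ℓ`
  have hPprime : (Ideal.span {(ℓ : ℤ)}).IsPrime :=
    (Ideal.span_singleton_prime (by exact_mod_cast hℓ.ne_zero)).mpr (Nat.prime_iff_prime_int.mp hℓ)
  obtain ⟨Q, hQprime, hQP⟩ := Ideal.exists_ideal_over_prime_of_isIntegral_of_isDomain
    (S := integralClosure ℤ (AlgebraicClosure ℚ)) (Ideal.span {(ℓ : ℤ)})
    (by
      rw [(RingHom.injective_iff_ker_eq_bot _).mp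
        (FaithfulSMul.algebraMap_injective ℤ (integralClosure ℤ (AlgebraicClosure ℚ)))]
      exact bot_le)
  have hℓQ : (ℓ : integralClosure ℤ (AlgebraicClosure ℚ)) ∈ Q := by
    have h1 : (ℓ : ℤ) ∈ Q.comap (algebraMap ℤ (integralClosure ℤ (AlgebraicClosure ℚ))) := by
      rw [hQP]; exact Ideal.mem_span_singleton_self _
    simpa using h1
  have hℓpos : 0 < ℓ := hℓ.pos
  have h1Q : (1 : integralClosure ℤ (AlgebraicClosure ℚ)) ∉ Q :=
    (Ideal.ne_top_iff_one Q).mp hQprime.ne_top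
  obtain ⟨σ, hσ⟩ := FrobIntB.exists_frob_on_integers ℓ hℓ Q hℓQ
  -- `σ` and `σ⁻¹` preserve integrality
  have hint : ∀ (τ : AlgebraicClosure ℚ ≃ₐ[ℚ] AlgebraicClosure ℚ)
      (b : integralClosure ℤ (AlgebraicClosure ℚ)), IsIntegral ℤ (τ (b : AlgebraicClosure ℚ)) :=
    fun τ b => b.2.map τ
  -- `σ` preserves membership in `Q`
  have hQiff : ∀ (b c : integralClosure ℤ (AlgebraicClosure ℚ)),
      (c : AlgebraicClosure ℚ) = σ b → (c ∈ Q ↔ b ∈ Q) := by
    intro b c hbc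
    have h := hσ b c hbc
    constructor
    · intro hc
      have : b ^ ℓ ∈ Q := by
        have := Q.sub_mem hc h
        simpa using this
      exact hQprime.mem_of_pow_mem _ this
    · intro hb
      have : c - b ^ ℓ + b ^ ℓ ∈ Q := Q.add_mem h (Ideal.pow_mem_of_mem Q hb ℓ hℓpos)
      simpa using this
  -- stability of the valuation subring under `σ` and `σ⁻¹`
  have hstab : ∀ x : AlgebraicClosure ℚ, x ∈ valSub Q → σ x ∈ valSub Q := by
    rintro x ⟨a, s, hs, h⟩
    refine ⟨⟨σ a, hint σ a⟩, ⟨σ s, hint σ s⟩, ?_, ?_⟩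
    · exact fun hmem => hs ((hQiff s ⟨σ s, hint σ s⟩ rfl).mp hmem)
    · show σ (s : AlgebraicClosure ℚ) * σ x = σ (a : AlgebraicClosure ℚ)
      rw [← map_mul, h]
  have hstab' : ∀ x : AlgebraicClosure ℚ, x ∈ valSub Q → σ.symm x ∈ valSub Q := by
    rintro x ⟨a, s, hs, h⟩
    refine ⟨⟨σ.symm a, hint σ.symm a⟩, ⟨σ.symm s, hint σ.symm s⟩, ?_, ?_⟩
    · intro hmem
      exact hs ((hQiff ⟨σ.symm s, hint σ.symm s⟩ s (by simp)).mpr hmem)
    · show σ.symm (s : AlgebraicClosure ℚ) * σ.symm x = σ.symm (a : AlgebraicClosure ℚ)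
      rw [← map_mul, h]
  refine ⟨valSub Q, σ, ?_, ?_⟩
  · -- lies over `ℓ`
    show ((ℓ : ℕ) : AlgebraicClosure ℚ) ∈ (valSub Q).nonunits
    exact mem_nonunits_valSub Q (ℓ : integralClosure ℤ (AlgebraicClosure ℚ)) 1 hℓQ h1Q (by simp)
  · -- Frobenius
    have hdec : σ ∈ (valSub Q).decompositionSubgroup ℚ := by
      rw [MulAction.mem_stabilizer_iff]
      ext x
      rw [ValuationSubring.mem_pointwise_smul_iff_inv_smul_mem]
      have hinv : σ⁻¹ • x = σ.symm x := rfl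
      rw [hinv]
      constructor
      · intro hx
        have := hstab _ hx
        simpa using this
      · exact hstab' x
    refine ⟨hdec, ?_⟩
    intro x
    obtain ⟨y, rfl⟩ := IsLocalRing.residue_surjective x
    rw [← IsLocalRing.ResidueField.residue_smul, ← map_pow]
    rw [← sub_eq_zero, ← map_sub, IsLocalRing.residue_eq_zero_iff,
      ← ValuationSubring.coe_mem_nonunits_iff]
    obtain ⟨y, a, s, hs, h⟩ := y
    -- the element `σ y - y ^ ℓ` equals `num / den` with `num ∈ Q`, `den ∉ Q`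
    set a' : integralClosure ℤ (AlgebraicClosure ℚ) := ⟨σ a, hint σ a⟩ with ha'
    set s' : integralClosure ℤ (AlgebraicClosure ℚ) := ⟨σ s, hint σ s⟩ with hs'
    have hs'Q : s' ∉ Q := fun hmem => hs ((hQiff s s' rfl).mp hmem)
    have hnum : a' * s ^ ℓ - a ^ ℓ * s' ∈ Q := by
      have h1 := hσ a a' rfl
      have h2 := hσ s s' rfl
      have : a' * s ^ ℓ - a ^ ℓ * s' = (a' - a ^ ℓ) * s ^ ℓ - a ^ ℓ * (s' - s ^ ℓ) := by ring
      rw [this]
      exact Q.sub_mem (Ideal.mul_mem_right _ _ h1) (Ideal.mul_mem_left _ _ h2)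
    have hden : s' * s ^ ℓ ∉ Q := by
      intro hmem
      rcases hQprime.mem_or_mem hmem with h1 | h1
      · exact hs'Q h1
      · exact hs (hQprime.mem_of_pow_mem _ h1)
    refine mem_nonunits_valSub Q (a' * s ^ ℓ - a ^ ℓ * s') (s' * s ^ ℓ) hnum hden ?_
    have hcoe : (((⟨σ, hdec⟩ : (valSub Q).decompositionSubgroup ℚ) •
        (⟨y, a, s, hs, h⟩ : valSub Q) - (⟨y, a, s, hs, h⟩ : valSub Q) ^ ℓ : valSub Q) :
          AlgebraicClosure ℚ) = σ y - y ^ ℓ := rfl
    rw [hcoe]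
    push_cast
    have e1 : σ (s : AlgebraicClosure ℚ) * σ y = σ (a : AlgebraicClosure ℚ) := by
      rw [← map_mul, h]
    show σ (s : AlgebraicClosure ℚ) * (s : AlgebraicClosure ℚ) ^ ℓ * (σ y - y ^ ℓ) =
      σ (a : AlgebraicClosure ℚ) * (s : AlgebraicClosure ℚ) ^ ℓ -
        (a : AlgebraicClosure ℚ) ^ ℓ * σ (s : AlgebraicClosure ℚ)
    rw [← e1, ← h]
    ring

end Fermat.Agent.S54
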