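import Mathlib

set_option autoImplicit false

namespace Fermat.Agent.S54

open scoped Pointwise

/-- The two `Algebra ℚ (AlgebraicClosure ℚ)` instances agree definitionally. -/
theorem ratAlgEq' : (DivisionRing.toRatAlgebra : Algebra ℚ (AlgebraicClosure ℚ)) =
    AlgebraicClosure.instAlgebra ℚ := rfl

local notation "Qb" => AlgebraicClosure ℚ
local notation "GQ" => (AlgebraicClosure ℚ ≃ₐ[ℚ] AlgebraicClosure ℚ)
local notation "Zb" => integralClosure ℤ (AlgebraicClosure ℚ)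

theorem isAlgClosureRat' : IsAlgClosure ℚ Qb := by
  rw [ratAlgEq']; infer_instance

attribute [local instance] isAlgClosureRat'

theorem isAlgebraic_int_Qb : Algebra.IsAlgebraic ℤ Qb :=
  (IsFractionRing.comap_isAlgebraic_iff (A := ℤ) (K := ℚ) (C := Qb)).mpr inferInstance

attribute [local instance] isAlgebraic_int_Qb

theorem isFractionRing_Zb : IsFractionRing Zb Qb :=
  integralClosure.isFractionRing_of_algebraic (A := ℤ) (L := Qb) (fun x hx => by
    simpa using hx)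

attribute [local instance] isFractionRing_Zb

@[reducible] noncomputable def galActionZb : MulSemiringAction GQ Zb :=
  IsIntegralClosure.MulSemiringAction ℤ ℚ Qb Zb

attribute [local instance] galActionZb

theorem coe_smul_Zb (σ : GQ) (b : Zb) : ((σ • b : Zb) : Qb) = σ (b : Qb) :=
  algebraMap_galRestrict_apply ℤ σ b

example : SMulCommClass GQ ℤ Zb := inferInstance

theorem isInvariant_Zb : Algebra.IsInvariant ℤ Zb GQ := by
  refine ⟨fun b hb => ?_⟩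
  have hfix : ∀ σ : GQ, σ (b : Qb) = (b : Qb) := fun σ => by
    rw [← coe_smul_Zb, hb σ]
  obtain ⟨r, hr⟩ := (InfiniteGalois.mem_range_algebraMap_iff_fixed (k := ℚ) (K := Qb) (b : Qb)).mpr hfix
  have hint : IsIntegral ℤ (algebraMap ℚ Qb r) := hr ▸ b.2
  have hint' : IsIntegral ℤ r :=
    (isIntegral_algebraMap_iff (algebraMap ℚ Qb).injective).mp hint
  obtain ⟨n, hn⟩ := IsIntegrallyClosed.isIntegral_iff.mp hint'
  refine ⟨n, Subtype.ext ?_⟩
  rw [← hr, ← hn]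
  simp

end Fermat.Agent.S54

namespace Fermat.Agent.S54

open scoped Pointwise

local notation "Qb" => AlgebraicClosure ℚ
local notation "GQ" => (AlgebraicClosure ℚ ≃ₐ[ℚ] AlgebraicClosure ℚ)
local notation "Zb" => integralClosure ℤ (AlgebraicClosure ℚ)

attribute [local instance] isAlgClosureRat' isAlgebraic_int_Qb isFractionRing_Zb galActionZb

theorem stabilizer_Zb_isOpen (b : Zb) :
    IsOpen (MulAction.stabilizer GQ b : Set GQ) := by
  have h := stabilizer_isOpen_of_isIntegral (K := ℚ) (L := Qb) (b : Qb)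
  convert h using 1
  ext σ
  simp only [SetLike.mem_coe, MulAction.mem_stabilizer_iff]
  constructor
  · intro hσ
    have := congrArg (fun x : Zb => (x : Qb)) hσ
    simpa [coe_smul_Zb] using this
  · intro hσ
    apply Subtype.ext
    rw [coe_smul_Zb]
    exact hσ

theorem exists_lift_of_algEquiv (Q : Ideal Zb) [Q.IsPrime]
    (τ : (Zb ⧸ Q) ≃ₐ[ℤ ⧸ Q.under ℤ] (Zb ⧸ Q)) :
    ∃ σ : GQ, ∀ b c : Zb, (c : Qb) = σ (b : Qb) →
      Ideal.Quotient.mk Q c = τ (Ideal.Quotient.mk Q b) := by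
  letI : TopologicalSpace Zb := ⊥
  haveI : DiscreteTopology Zb := ⟨rfl⟩
  haveI : ContinuousSMul GQ Zb :=
    continuousSMul_iff_stabilizer_isOpen.mpr stabilizer_Zb_isOpen
  haveI := isInvariant_Zb
  obtain ⟨g, hg⟩ := Ideal.Quotient.stabilizerHom_surjective_of_profinite (G := GQ)
    (Q.under ℤ) Q τ
  refine ⟨g.1, fun b c hc => ?_⟩
  have hcb : c = g.1 • b := Subtype.ext (by rw [hc, coe_smul_Zb])
  rw [← hg, hcb]
  rfl

end Fermat.Agent.S54

namespace Fermat.Agent.S54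

open scoped Pointwise

local notation "Qb" => AlgebraicClosure ℚ
local notation "GQ" => (AlgebraicClosure ℚ ≃ₐ[ℚ] AlgebraicClosure ℚ)
local notation "Zb" => integralClosure ℤ (AlgebraicClosure ℚ)

/-- The `ℓ`-power Frobenius on `Zb ⧸ Q` as an algebra automorphism over `ℤ ⧸ Q.under ℤ`. -/
theorem exists_frobAlgEquiv_aux (ℓ : ℕ) (hℓ : ℓ.Prime) (Q : Ideal Zb) [Q.IsPrime]
    (hQ : (ℓ : Zb) ∈ Q) :
    ∃ τ : (Zb ⧸ Q) ≃ₐ[ℤ ⧸ Q.under ℤ] (Zb ⧸ Q), ∀ x, τ x = x ^ ℓ := by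
  haveI : Fact ℓ.Prime := ⟨hℓ⟩
  haveI : CharP (Zb ⧸ Q) ℓ := by
    rw [CharP.charP_iff_prime_eq_zero hℓ]
    have : ((ℓ : Zb ⧸ Q)) = Ideal.Quotient.mk Q (ℓ : Zb) := by simp
    rw [this, Ideal.Quotient.eq_zero_iff_mem]
    exact hQ
  have hinj : Function.Injective (frobenius (Zb ⧸ Q) ℓ) := frobenius_inj (Zb ⧸ Q) ℓ
  have hsurj : Function.Surjective (frobenius (Zb ⧸ Q) ℓ) := by
    intro y
    obtain ⟨b, rfl⟩ := Ideal.Quotient.mk_surjective y
    obtain ⟨c, hc⟩ := IsAlgClosed.exists_pow_nat_eq (b : Qb) hℓ.pos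
    have hcint : IsIntegral ℤ c := IsIntegral.of_pow hℓ.pos (hc ▸ b.2)
    refine ⟨Ideal.Quotient.mk Q ⟨c, hcint⟩, ?_⟩
    rw [frobenius_def, ← map_pow]
    congr 1
    exact Subtype.ext hc
  let e : (Zb ⧸ Q) ≃+* (Zb ⧸ Q) := RingEquiv.ofBijective (frobenius (Zb ⧸ Q) ℓ) ⟨hinj, hsurj⟩
  refine ⟨AlgEquiv.ofRingEquiv (f := e) ?_, fun x => rfl⟩
  intro x
  obtain ⟨n, rfl⟩ := Ideal.Quotient.mk_surjective x
  change frobenius (Zb ⧸ Q) ℓ (algebraMap (ℤ ⧸ Q.under ℤ) (Zb ⧸ Q) (Ideal.Quotient.mk _ n)) = _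
  have h1 : algebraMap (ℤ ⧸ Q.under ℤ) (Zb ⧸ Q) (Ideal.Quotient.mk _ n) = ((n : ℤ) : Zb ⧸ Q) := by
    rw [← Ideal.Quotient.algebraMap_eq, ← IsScalarTower.algebraMap_apply]
    simp
  rw [h1, map_intCast]

/-- Existence of a Frobenius element at `Q` acting on the ring of all algebraic integers. -/
theorem exists_frob_on_integers (ℓ : ℕ) (hℓ : ℓ.Prime)
    (Q : Ideal (integralClosure ℤ (AlgebraicClosure ℚ))) [Q.IsPrime]
    (hQ : (ℓ : integralClosure ℤ (AlgebraicClosure ℚ)) ∈ Q) :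
    ∃ σ : AlgebraicClosure ℚ ≃ₐ[ℚ] AlgebraicClosure ℚ,
      ∀ (b c : integralClosure ℤ (AlgebraicClosure ℚ)),
        (c : AlgebraicClosure ℚ) = σ b → c - b ^ ℓ ∈ Q := by
  obtain ⟨τ, hτ⟩ := exists_frobAlgEquiv_aux ℓ hℓ Q hQ
  obtain ⟨σ, hσ⟩ := exists_lift_of_algEquiv Q τ
  refine ⟨σ, fun b c hc => ?_⟩
  have h := hσ b c hc
  rw [hτ, ← map_pow] at h
  exact Ideal.Quotient.eq.mp h

end Fermat.Agent.S54
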